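/-
S17 / MK  (Mathlib only).  M_K-constants: the calculus.

`mk S M v = (τ v * ∏ a ∈ S, max 1 (v a)) ^ M`,  τ v = 1 (v nonarchimedean) or 2.
EVERY estimate `A ≪ B` of the S17 blueprint is stated as
    `∃ (S : Finset K) (M : ℕ), ∀ (v : AbsoluteValue K ℝ) (data), A ≤ mk S M v * B`.
All proofs here are a few lines (Finset.prod_le_prod, pow_le_pow_left₀, one_le_pow₀ ...).
-/
import Mathlib

set_option autoImplicit false

namespace Fermat.Agent.S17.MK

open Classical in
/-- `1` for a nonarchimedean absolute value, `2` otherwise. -/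
noncomputable def tau {K : Type*} [Field K] (v : AbsoluteValue K ℝ) : ℝ :=
  if IsNonarchimedean v then 1 else 2

/-- base of an M_K-constant -/
noncomputable def base {K : Type*} [Field K] (S : Finset K) (v : AbsoluteValue K ℝ) : ℝ :=
  ∏ a ∈ S, max 1 (v a)

/-- the standard M_K-constant -/
noncomputable def mk {K : Type*} [Field K] (S : Finset K) (M : ℕ) (v : AbsoluteValue K ℝ) : ℝ :=
  (tau v * base S v) ^ M

variable {K : Type*} [Field K]

theorem tau_of_na {v : AbsoluteValue K ℝ} (h : IsNonarchimedean v) : tau v = 1 := by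
  unfold tau
  rw [if_pos h]

theorem tau_of_not_na {v : AbsoluteValue K ℝ} (h : ¬ IsNonarchimedean v) : tau v = 2 := by
  unfold tau
  rw [if_neg h]

theorem one_le_tau (v : AbsoluteValue K ℝ) : 1 ≤ tau v := by
  by_cases h : IsNonarchimedean v
  · rw [tau_of_na h]
  · rw [tau_of_not_na h]; norm_num

theorem tau_le_two (v : AbsoluteValue K ℝ) : tau v ≤ 2 := by
  by_cases h : IsNonarchimedean v
  · rw [tau_of_na h]; norm_num
  · rw [tau_of_not_na h]

theorem one_le_base (S : Finset K) (v : AbsoluteValue K ℝ) : 1 ≤ base S v := by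
  unfold base
  exact Finset.one_le_prod (fun a _ => le_max_left _ _)

theorem base_mono [DecidableEq K] {S T : Finset K} (h : S ⊆ T) (v : AbsoluteValue K ℝ) :
    base S v ≤ base T v := by
  unfold base
  exact Finset.prod_le_prod_of_subset_of_one_le h
    (fun a _ => le_trans zero_le_one (le_max_left _ _)) (fun a _ _ => le_max_left _ _)

theorem le_base {S : Finset K} {a : K} (h : a ∈ S) (v : AbsoluteValue K ℝ) : v a ≤ base S v := by
  unfold base
  have h1 := Finset.le_prod_max_one h (fun a => v a)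
  simpa only [max_comm] using h1

theorem one_le_mk (S : Finset K) (M : ℕ) (v : AbsoluteValue K ℝ) : 1 ≤ mk S M v := by
  unfold mk
  exact one_le_pow₀ (one_le_mul_of_one_le_of_one_le (one_le_tau v) (one_le_base S v))

theorem mk_pos (S : Finset K) (M : ℕ) (v : AbsoluteValue K ℝ) : 0 < mk S M v :=
  lt_of_lt_of_le one_pos (one_le_mk S M v)

theorem mk_mono {S T : Finset K} {M N : ℕ} (h : S ⊆ T) (hMN : M ≤ N) (v : AbsoluteValue K ℝ) :
    mk S M v ≤ mk T N v := by
  classical
  unfold mk
  have h0 : 0 ≤ tau v := le_trans zero_le_one (one_le_tau v)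
  have h1 : 1 ≤ tau v * base T v :=
    one_le_mul_of_one_le_of_one_le (one_le_tau v) (one_le_base T v)
  have h2 : 0 ≤ tau v * base S v :=
    mul_nonneg h0 (le_trans zero_le_one (one_le_base S v))
  calc (tau v * base S v) ^ M ≤ (tau v * base T v) ^ M :=
        pow_le_pow_left₀ h2 (mul_le_mul_of_nonneg_left (base_mono h v) h0) M
    _ ≤ (tau v * base T v) ^ N := pow_le_pow_right₀ h1 hMN

theorem mk_mul_le [DecidableEq K] (S T : Finset K) (M N : ℕ) (v : AbsoluteValue K ℝ) :
    mk S M v * mk T N v ≤ mk (S ∪ T) (M + N) v := by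
  have h1 : mk S M v ≤ mk (S ∪ T) M v := mk_mono Finset.subset_union_left le_rfl v
  have h2 : mk T N v ≤ mk (S ∪ T) N v := mk_mono Finset.subset_union_right le_rfl v
  have h3 : mk (S ∪ T) (M + N) v = mk (S ∪ T) M v * mk (S ∪ T) N v := by
    unfold mk
    rw [pow_add]
  rw [h3]
  exact mul_le_mul h1 h2 (mk_pos _ _ _).le (mk_pos _ _ _).le

theorem mk_pow (S : Finset K) (M n : ℕ) (v : AbsoluteValue K ℝ) :
    mk S M v ^ n = mk S (M * n) v := by
  unfold mk
  rw [pow_mul]

theorem tau_le_mk (S : Finset K) {M : ℕ} (hM : 1 ≤ M) (v : AbsoluteValue K ℝ) :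
    tau v ≤ mk S M v := by
  unfold mk
  have h0 : 0 ≤ tau v := le_trans zero_le_one (one_le_tau v)
  have h1 : 1 ≤ tau v * base S v :=
    one_le_mul_of_one_le_of_one_le (one_le_tau v) (one_le_base S v)
  calc tau v ≤ tau v * base S v := le_mul_of_one_le_right h0 (one_le_base S v)
    _ = (tau v * base S v) ^ 1 := (pow_one _).symm
    _ ≤ (tau v * base S v) ^ M := pow_le_pow_right₀ h1 hM

theorem le_mk {S : Finset K} {a : K} (h : a ∈ S) {M : ℕ} (hM : 1 ≤ M) (v : AbsoluteValue K ℝ) :
    v a ≤ mk S M v := by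
  unfold mk
  have h0 : 0 ≤ base S v := le_trans zero_le_one (one_le_base S v)
  have h1 : 1 ≤ tau v * base S v :=
    one_le_mul_of_one_le_of_one_le (one_le_tau v) (one_le_base S v)
  calc v a ≤ base S v := le_base h v
    _ ≤ tau v * base S v := le_mul_of_one_le_left h0 (one_le_tau v)
    _ = (tau v * base S v) ^ 1 := (pow_one _).symm
    _ ≤ (tau v * base S v) ^ M := pow_le_pow_right₀ h1 hM

/-- the inverse of a nonzero coefficient is also controlled -/
theorem inv_le_mk {S : Finset K} {a : K} (h : a⁻¹ ∈ S) {M : ℕ} (hM : 1 ≤ M)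
    (v : AbsoluteValue K ℝ) : (v a)⁻¹ ≤ mk S M v := by
  rw [← map_inv₀]
  exact le_mk h hM v

/-- finitely many M_K-constants are dominated by one -/
theorem exists_mk_ge {ι : Type*} [Finite ι] (S : ι → Finset K) (M : ι → ℕ) :
    ∃ (T : Finset K) (N : ℕ), ∀ i v, mk (S i) (M i) v ≤ mk T N v := by
  classical
  cases nonempty_fintype ι
  refine ⟨Finset.univ.biUnion S, ∑ i, M i, fun i v => mk_mono ?_ ?_ v⟩
  · exact Finset.subset_biUnion_of_mem S (Finset.mem_univ i)
  · exact Finset.single_le_sum (f := M) (fun _ _ => Nat.zero_le _) (Finset.mem_univ i)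

/-- sums: `v (∑ x_i) ≤ τ^n max`, n = number of terms  (`n ≤ 2^n`; nonarchimedean: ultrametric,
`IsNonarchimedean.apply_sum_le` / Finset induction). -/
theorem sum_le {ι : Type*} (s : Finset ι) (x : ι → K) (v : AbsoluteValue K ℝ) {B : ℝ} (hB : 0 ≤ B)
    (h : ∀ i ∈ s, v (x i) ≤ B) : v (∑ i ∈ s, x i) ≤ tau v ^ s.card * B := by
  classical
  by_cases hna : IsNonarchimedean v
  · rw [tau_of_na hna, one_pow, one_mul]
    induction s using Finset.induction_on with
    | empty => simpa using hB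
    | insert a s ha ih =>
      rw [Finset.sum_insert ha]
      refine le_trans (hna _ _) (max_le (h a (Finset.mem_insert_self a s)) ?_)
      exact ih (fun i hi => h i (Finset.mem_insert_of_mem hi))
  · rw [tau_of_not_na hna]
    have h1 : v (∑ i ∈ s, x i) ≤ ∑ i ∈ s, v (x i) := v.sum_le s x
    have h2 : ∑ i ∈ s, v (x i) ≤ ∑ _i ∈ s, B := Finset.sum_le_sum h
    rw [Finset.sum_const, nsmul_eq_mul] at h2
    have h3 : (s.card : ℝ) ≤ 2 ^ s.card := by
      exact_mod_cast (Nat.lt_two_pow_self (n := s.card)).le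
    exact le_trans h1 (le_trans h2 (mul_le_mul_of_nonneg_right h3 hB))

theorem sum_le_mk {ι : Type*} (s : Finset ι) (x : ι → K) (v : AbsoluteValue K ℝ) {B : ℝ}
    (hB : 0 ≤ B) (h : ∀ i ∈ s, v (x i) ≤ B) : v (∑ i ∈ s, x i) ≤ mk ∅ s.card v * B := by
  have h1 := sum_le s x v hB h
  have h2 : mk ∅ s.card v = tau v ^ s.card := by
    unfold mk base
    simp
  rwa [h2]

/-- evaluation of a fixed polynomial on a polydisc of radius `B ≥ 1`. -/
theorem eval_le {σ : Type*} (P : MvPolynomial σ K) :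
    ∃ (S : Finset K) (M : ℕ), ∀ (v : AbsoluteValue K ℝ) (z : σ → K) (B : ℝ), 1 ≤ B →
      (∀ i, v (z i) ≤ B) → v (MvPolynomial.eval z P) ≤ mk S M v * B ^ P.totalDegree := by
  classical
  refine ⟨P.support.image (fun d => P.coeff d), P.support.card + 1, fun v z B hB hz => ?_⟩
  set S := P.support.image (fun d => P.coeff d) with hS
  have hB0 : 0 ≤ B := le_trans zero_le_one hB
  rw [MvPolynomial.eval_eq]
  have hterm : ∀ d ∈ P.support, v (P.coeff d * ∏ i ∈ d.support, z i ^ d i) ≤
      mk S 1 v * B ^ P.totalDegree := by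
    intro d hd
    rw [map_mul, map_prod]
    have h1 : v (P.coeff d) ≤ mk S 1 v := le_mk (Finset.mem_image_of_mem _ hd) le_rfl v
    have h2 : ∏ i ∈ d.support, v (z i ^ d i) ≤ ∏ i ∈ d.support, B ^ d i := by
      apply Finset.prod_le_prod
      · intro i _; exact v.nonneg _
      · intro i _
        rw [map_pow]
        exact pow_le_pow_left₀ (v.nonneg _) (hz i) _
    have h3 : ∏ i ∈ d.support, B ^ d i = B ^ (d.sum fun _ e => e) := by
      rw [Finset.prod_pow_eq_pow_sum]
      rfl
    have h4 : B ^ (d.sum fun _ e => e) ≤ B ^ P.totalDegree :=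
      pow_le_pow_right₀ hB (MvPolynomial.le_totalDegree hd)
    exact mul_le_mul h1 (le_trans h2 (h3 ▸ h4))
      (Finset.prod_nonneg fun i _ => v.nonneg _) (mk_pos _ _ _).le
  have h5 := sum_le_mk P.support (fun d => P.coeff d * ∏ i ∈ d.support, z i ^ d i) v
    (mul_nonneg (mk_pos S 1 v).le (pow_nonneg hB0 _)) hterm
  refine le_trans h5 ?_
  rw [← mul_assoc]
  apply mul_le_mul_of_nonneg_right _ (pow_nonneg hB0 _)
  have h6 := mk_mul_le ∅ S P.support.card 1 v
  rwa [Finset.empty_union] at h6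

/-- evaluation of a fixed polynomial on the polydisc of radius `τ v`. -/
theorem eval_le_tau {σ : Type*} (P : MvPolynomial σ K) :
    ∃ (S : Finset K) (M : ℕ), ∀ (v : AbsoluteValue K ℝ) (z : σ → K),
      (∀ i, v (z i) ≤ tau v) → v (MvPolynomial.eval z P) ≤ mk S M v := by
  classical
  obtain ⟨S, M, h⟩ := eval_le P
  refine ⟨S, M + P.totalDegree, fun v z hz => ?_⟩
  refine le_trans (h v z (tau v) (one_le_tau v) hz) ?_
  have h1 : tau v ^ P.totalDegree ≤ mk S P.totalDegree v := by
    have := pow_le_pow_left₀ (le_trans zero_le_one (one_le_tau v)) (tau_le_mk S le_rfl v)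
      P.totalDegree
    rwa [mk_pow, one_mul] at this
  have h2 := mk_mul_le S S M P.totalDegree v
  rw [Finset.union_self] at h2
  exact le_trans (mul_le_mul_of_nonneg_left h1 (mk_pos _ _ _).le) h2

end Fermat.Agent.S17.MK
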