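/-
S17 / MK-NSS  (Mathlib only).  The ONLY source of lower bounds in the whole S17 project.

(NSS)  p_a, g_b polynomials over an algebraically closed field without common zero.  Then there is an
M_K-constant with: for EVERY absolute value v and every zero z of the g_b in the polydisc of radius τ v,
some  v (p_a z) ≥ 1 / mk S M v.

PROOF.  The ideal I = span (range p ∪ range g) has empty zero locus, so I = ⊤
(`MvPolynomial.vanishingIdeal_zeroLocus_eq_radical`, or `MvPolynomial.zeroLocus_...`/
`Ideal.radical_eq_top`), so  1 = ∑_a q_a p_a + ∑_b r_b g_b  (`Submodule.mem_span_range_iff_exists_fun`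
/ `Ideal.mem_span_range_iff_exists_fun` after `Sum.elim p g`).  Evaluate at z:  1 = ∑_a q_a(z) p_a(z).
`eval_le_tau` bounds v (q_a z) ≤ mk S_a M_a v ≤ mk T N v (`exists_mk_ge`), `sum_le_mk`:
  1 = v 1 ≤ mk ∅ (card ι) v * (mk T N v * max_a v (p_a z)).   Take the a of the maximum
(if ι is empty then 1 = 0, contradiction).
-/
import Fermat.Agent.S17.MK.Defs

set_option autoImplicit false

namespace Fermat.Agent.S17.MK

variable {K : Type*} [Field K]

theorem nss [IsAlgClosed K] {σ ι κ : Type*} [Finite σ] [Finite ι] [Finite κ]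
    (p : ι → MvPolynomial σ K) (g : κ → MvPolynomial σ K)
    (h : ∀ z : σ → K, (∀ b, MvPolynomial.eval z (g b) = 0) → ∃ a, MvPolynomial.eval z (p a) ≠ 0) :
    ∃ (S : Finset K) (M : ℕ), ∀ (v : AbsoluteValue K ℝ) (z : σ → K),
      (∀ b, MvPolynomial.eval z (g b) = 0) → (∀ i, v (z i) ≤ tau v) →
      ∃ a, 1 ≤ mk S M v * v (MvPolynomial.eval z (p a)) := by
  classical
  cases nonempty_fintype ι
  cases nonempty_fintype κ
  -- the ideal is `⊤`
  have htop : Ideal.span (Set.range (Sum.elim p g)) = ⊤ := by
    have h1 : MvPolynomial.zeroLocus K (Ideal.span (Set.range (Sum.elim p g))) = ∅ := by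
      rw [MvPolynomial.zeroLocus_span]
      apply Set.eq_empty_of_forall_notMem
      intro z hz
      have hz' : ∀ q ∈ Set.range (Sum.elim p g), MvPolynomial.aeval z q = 0 := hz
      obtain ⟨a, ha⟩ := h z (fun b => by
        have := hz' (g b) ⟨Sum.inr b, rfl⟩
        rwa [MvPolynomial.aeval_eq_eval] at this)
      apply ha
      have := hz' (p a) ⟨Sum.inl a, rfl⟩
      rwa [MvPolynomial.aeval_eq_eval] at this
    have h2 := MvPolynomial.vanishingIdeal_zeroLocus_eq_radical (K := K)
      (Ideal.span (Set.range (Sum.elim p g)))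
    rw [h1, MvPolynomial.vanishingIdeal_empty] at h2
    exact Ideal.radical_eq_top.1 h2.symm
  have hone : (1 : MvPolynomial σ K) ∈ Ideal.span (Set.range (Sum.elim p g)) := by
    rw [htop]; trivial
  obtain ⟨c, hc⟩ := (Ideal.mem_span_range_iff_exists_fun).1 hone
  rw [Fintype.sum_sum_type] at hc
  simp only [Sum.elim_inl, Sum.elim_inr] at hc
  choose S0 M0 hSM using fun a : ι => eval_le_tau (c (Sum.inl a))
  obtain ⟨T, N, hTN⟩ := exists_mk_ge S0 M0
  refine ⟨T, Fintype.card ι + N, fun v z hg hz => ?_⟩
  have heval : (1 : K) = ∑ a : ι, MvPolynomial.eval z (c (Sum.inl a)) *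
      MvPolynomial.eval z (p a) := by
    have := congrArg (MvPolynomial.eval z) hc
    rw [map_add, map_sum, map_sum, map_one] at this
    simp only [map_mul, hg, mul_zero, Finset.sum_const_zero, add_zero] at this
    exact this.symm
  have hne : Nonempty ι := by
    by_contra hemp
    rw [not_nonempty_iff] at hemp
    rw [Finset.univ_eq_empty, Finset.sum_empty] at heval
    exact one_ne_zero heval
  obtain ⟨a, -, ha⟩ := Finset.exists_max_image Finset.univ
    (fun a : ι => v (MvPolynomial.eval z (p a))) Finset.univ_nonempty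
  refine ⟨a, ?_⟩
  have hterm : ∀ i ∈ (Finset.univ : Finset ι), v (MvPolynomial.eval z (c (Sum.inl i)) *
      MvPolynomial.eval z (p i)) ≤ mk T N v * v (MvPolynomial.eval z (p a)) := by
    intro i hi
    rw [map_mul]
    exact mul_le_mul (le_trans (hSM i v z hz) (hTN i v)) (ha i hi) (v.nonneg _) (mk_pos _ _ _).le
  have h1 := sum_le_mk Finset.univ (fun i : ι => MvPolynomial.eval z (c (Sum.inl i)) *
      MvPolynomial.eval z (p i)) v (mul_nonneg (mk_pos T N v).le (v.nonneg _)) hterm
  rw [← heval, map_one, ← mul_assoc] at h1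
  refine le_trans h1 (mul_le_mul_of_nonneg_right ?_ (v.nonneg _))
  have h2 := mk_mul_le ∅ T (Finset.univ : Finset ι).card N v
  rwa [Finset.empty_union] at h2

end Fermat.Agent.S17.MK
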